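import Mathlib

/-!
# Row LT, tower A2, leaf A2.03.8.5.9 `H254.SuppC254` (helper322): the local lemma

OFF-MAIN, Mathlib only.  `k = K_v` (completion at a finite place), `𝒪 = 𝒪_v`, `ϖ` a uniformiser.
`A, B ∈ M₂(𝒪)` with `A B = B A = ϖ`, `det A = det B = ϖ` and trace a unit.  Then for `N ≥ 1`,
`e ≥ 1` the matrix `ϖ^{-e} B^N` is NOT integral (`not_intM_smul_pow322`):
`B² = τ B - ϖ` (Cayley--Hamilton), so `B^N = x B + ϖ y` with `x` a unit and `y` integral, and
`ϖ⁻¹ B` is not integral (its determinant is `ϖ⁻¹`).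
-/

set_option autoImplicit false

open IsDedekindDomain NumberField

noncomputable section

namespace Fermat.Agent.LT.A2.H322

variable {K : Type} [Field K] [NumberField K] (v : HeightOneSpectrum (𝓞 K))

/-- The matrix `M` over `K_v` has entries in `𝒪_v`. -/
def IntM322 (M : Matrix (Fin 2) (Fin 2) (v.adicCompletion K)) : Prop :=
  ∀ i j, M i j ∈ v.adicCompletionIntegers K

variable {v}

theorem intM_one322 : IntM322 v (1 : Matrix (Fin 2) (Fin 2) (v.adicCompletion K)) := by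
  intro i j
  by_cases h : i = j
  · subst h; rw [Matrix.one_apply_eq]; exact one_mem _
  · rw [Matrix.one_apply_ne h]; exact zero_mem _

theorem intM_mul322 {M N : Matrix (Fin 2) (Fin 2) (v.adicCompletion K)}
    (hM : IntM322 v M) (hN : IntM322 v N) : IntM322 v (M * N) := by
  intro i j
  rw [Matrix.mul_apply]
  exact sum_mem fun l _ => mul_mem (hM i l) (hN l j)

theorem intM_pow322 {M : Matrix (Fin 2) (Fin 2) (v.adicCompletion K)}
    (hM : IntM322 v M) (n : ℕ) : IntM322 v (M ^ n) := by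
  induction n with
  | zero => rw [pow_zero]; exact intM_one322
  | succ n ih => rw [pow_succ]; exact intM_mul322 ih hM

theorem intM_smul322 {c : v.adicCompletion K} (hc : c ∈ v.adicCompletionIntegers K)
    {M : Matrix (Fin 2) (Fin 2) (v.adicCompletion K)} (hM : IntM322 v M) :
    IntM322 v (c • M) := by
  intro i j
  rw [Matrix.smul_apply, smul_eq_mul]
  exact mul_mem hc (hM i j)

theorem intM_det322 {M : Matrix (Fin 2) (Fin 2) (v.adicCompletion K)} (hM : IntM322 v M) :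
    M.det ∈ v.adicCompletionIntegers K := by
  rw [Matrix.det_fin_two]
  exact sub_mem (mul_mem (hM 0 0) (hM 1 1)) (mul_mem (hM 0 1) (hM 1 0))

theorem mem_int_iff322 (x : v.adicCompletion K) :
    x ∈ v.adicCompletionIntegers K ↔ Valued.v x ≤ 1 :=
  HeightOneSpectrum.mem_adicCompletionIntegers _ _ _

/-- Discreteness: `|x| < 1` implies `|x| ≤ |ϖ|`. -/
theorem le_exp_of_lt_one322 {x : WithZero (Multiplicative ℤ)} (h : x < 1) :
    x ≤ WithZero.exp (-1 : ℤ) := by
  have h1 : (WithZero.exp (-1 : ℤ) : WithZero (Multiplicative ℤ)) * WithZero.exp (1 : ℤ) = 1 := by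
    rw [← WithZero.exp_add]; simp
  rw [← h1] at h
  exact (WithZero.lt_mul_exp_iff_le WithZero.exp_ne_zero).mp h

/-- Cayley--Hamilton for a `2 × 2` matrix. -/
theorem sq_eq322 {R : Type*} [CommRing R] (B : Matrix (Fin 2) (Fin 2) R) :
    B ^ 2 = (B 0 0 + B 1 1) • B - B.det • (1 : Matrix (Fin 2) (Fin 2) R) := by
  rw [pow_two, Matrix.det_fin_two]
  ext i j
  fin_cases i <;> fin_cases j <;> simp [Matrix.mul_apply, Fin.sum_univ_two] <;> ring

/-- `B^N = x B + ϖ y` with `x` a unit and `y` integral. -/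
theorem pow_eq322 {ϖ : v.adicCompletion K} (hϖ : Valued.v ϖ = WithZero.exp (-1 : ℤ))
    {B : Matrix (Fin 2) (Fin 2) (v.adicCompletion K)} (hdet : B.det = ϖ)
    (htr : Valued.v (B 0 0 + B 1 1) = 1) (N : ℕ) :
    ∃ x y : v.adicCompletion K, Valued.v x = 1 ∧ Valued.v y ≤ 1 ∧
      B ^ (N + 1) = x • B + (ϖ * y) • (1 : Matrix (Fin 2) (Fin 2) (v.adicCompletion K)) := by
  induction N with
  | zero => exact ⟨1, 0, map_one _, by simp, by simp⟩
  | succ N ih =>
    obtain ⟨x, y, hx, hy, hxy⟩ := ih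
    have hlt : Valued.v (ϖ * y) < Valued.v ((B 0 0 + B 1 1) * x) := by
      rw [map_mul, map_mul, hϖ, htr, hx, one_mul]
      calc WithZero.exp (-1 : ℤ) * Valued.v y ≤ WithZero.exp (-1 : ℤ) * 1 :=
            mul_le_mul_right hy _
        _ = WithZero.exp (-1 : ℤ) := mul_one _
        _ < 1 := by rw [← WithZero.exp_zero]; exact WithZero.exp_lt_exp.mpr (by norm_num)
    refine ⟨(B 0 0 + B 1 1) * x + ϖ * y, -x, ?_, ?_, ?_⟩
    · rw [Valuation.map_add_eq_of_lt_left _ hlt, map_mul, htr, hx, one_mul]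
    · rw [Valuation.map_neg, hx]
    · have h2 := sq_eq322 B
      rw [hdet] at h2
      calc B ^ (N + 1 + 1) = B ^ (N + 1) * B := pow_succ _ _
        _ = (x • B + (ϖ * y) • (1 : Matrix (Fin 2) (Fin 2) (v.adicCompletion K))) * B := by
            rw [hxy]
        _ = x • B ^ 2 + (ϖ * y) • B := by
            rw [add_mul, Matrix.smul_mul, Matrix.smul_mul, one_mul, pow_two]
        _ = ((B 0 0 + B 1 1) * x + ϖ * y) • B
              + (ϖ * -x) • (1 : Matrix (Fin 2) (Fin 2) (v.adicCompletion K)) := by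
            rw [h2]
            ext i j
            simp only [Matrix.add_apply, Matrix.smul_apply, Matrix.sub_apply, smul_eq_mul]
            ring_nf

/-- `ϖ⁻¹ B` is not integral. -/
theorem not_intM_inv_smul322 {ϖ : v.adicCompletion K} (hϖ : Valued.v ϖ = WithZero.exp (-1 : ℤ))
    {B : Matrix (Fin 2) (Fin 2) (v.adicCompletion K)} (hdet : B.det = ϖ) :
    ¬ IntM322 v (ϖ⁻¹ • B) := by
  intro h
  have h1 := intM_det322 h
  rw [Matrix.det_smul, hdet, Fintype.card_fin, mem_int_iff322, map_mul, map_pow, map_inv₀,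
    hϖ] at h1
  have h2 : ((WithZero.exp (-1 : ℤ) : WithZero (Multiplicative ℤ))⁻¹) ^ 2 * WithZero.exp (-1 : ℤ)
      = WithZero.exp (1 : ℤ) := by
    rw [← WithZero.exp_neg, ← WithZero.exp_nsmul, ← WithZero.exp_add]
    norm_num
  rw [h2, ← WithZero.exp_zero, WithZero.exp_le_exp] at h1
  norm_num at h1

/-- **The local lemma**: `ϖ^{-e} B^N` is not integral for `e, N ≥ 1`. -/
theorem not_intM_smul_pow322 {ϖ : v.adicCompletion K}
    (hϖ : Valued.v ϖ = WithZero.exp (-1 : ℤ))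
    {B : Matrix (Fin 2) (Fin 2) (v.adicCompletion K)} (hdet : B.det = ϖ)
    (htr : Valued.v (B 0 0 + B 1 1) = 1) (e N : ℕ) :
    ¬ IntM322 v ((ϖ⁻¹) ^ (e + 1) • B ^ (N + 1)) := by
  intro h
  have hϖ0 : ϖ ≠ 0 := by
    intro h0
    rw [h0, map_zero] at hϖ
    exact WithZero.exp_ne_zero hϖ.symm
  have hϖint : ϖ ∈ v.adicCompletionIntegers K := by
    rw [mem_int_iff322, hϖ, ← WithZero.exp_zero, WithZero.exp_le_exp]; norm_num
  -- reduce to `e = 0`
  have h1 : IntM322 v (ϖ⁻¹ • B ^ (N + 1)) := by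
    have h2 := intM_smul322 (pow_mem hϖint e) h
    have h3 : ϖ ^ e • ((ϖ⁻¹) ^ (e + 1) • B ^ (N + 1)) = ϖ⁻¹ • B ^ (N + 1) := by
      rw [smul_smul]
      congr 1
      rw [pow_succ, ← mul_assoc, ← mul_pow, mul_inv_cancel₀ hϖ0, one_pow, one_mul]
    rwa [h3] at h2
  obtain ⟨x, y, hx, hy, hxy⟩ := pow_eq322 hϖ hdet htr N
  have hx0 : x ≠ 0 := by
    intro h0
    rw [h0, map_zero] at hx
    exact zero_ne_one hx
  apply not_intM_inv_smul322 hϖ hdet
  intro i j
  have h4 := h1 i j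
  rw [hxy] at h4
  simp only [Matrix.smul_apply, Matrix.add_apply, smul_eq_mul] at h4 ⊢
  have hy' : y * (1 : Matrix (Fin 2) (Fin 2) (v.adicCompletion K)) i j
      ∈ v.adicCompletionIntegers K :=
    mul_mem ((mem_int_iff322 y).mpr hy) (intM_one322 i j)
  have hxinv : x⁻¹ ∈ v.adicCompletionIntegers K := by
    rw [mem_int_iff322, map_inv₀, hx, inv_one]
  have h5 : ϖ⁻¹ * B i j
      = x⁻¹ * (ϖ⁻¹ * (x * B i j + ϖ * y * (1 : Matrix (Fin 2) (Fin 2) (v.adicCompletion K)) i j)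
          - y * (1 : Matrix (Fin 2) (Fin 2) (v.adicCompletion K)) i j) := by
    field_simp
    ring
  rw [h5]
  exact mul_mem hxinv (sub_mem h4 hy')

end Fermat.Agent.LT.A2.H322

end
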