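import Fermat.Agent.LT.A2.H322.SuppLocal

/-!
# Row LT, tower A2, leaf A2.03.8.5.9 `H254.SuppC254` (helper322), VERBATIM

OFF-MAIN.  `suppC322 : H254.SuppC254` against `LT/A2/H254/IntSpec.lean`
(helper254@ddb43b08e, sha256 e654c419).

`u = u_v u'` with `u_v = loc_v(u_v)` and `u' = u u_v⁻¹` trivial at `v`; `ρ = μ μ̄⁻¹ ∈ T¹`.
`tor1` with `m'' = ρ^i u_v`:  `F g' (ρ^i u m') (μ̄^j e₁) = F g' (u' m') (Y e₁)`,
`Y = (ρ^i u_v)⁻¹ μ̄^j` local at `v`, in the torus.  `Y_v = U_v⁻¹ Z`, `Z = (X^i)⁻¹ B^j` integral iff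
`-j ≤ i ≤ 0` (`LocPair322.zmat_int_iff`); a torus matrix is integral iff its first column is;
`good_std` gives `0`, resp. the value at `u_v⁻¹ e₁`, which is `F g' (u m') e₁` by `tor1`.
-/

set_option autoImplicit false

open IsDedekindDomain NumberField AutomorphicForm MeasureTheory
open scoped MatrixGroups

noncomputable section

namespace Fermat.Agent.LT.A2.H322

open Fermat.Agent.LT.H556 Fermat.Agent.LT.H556.A0 Fermat.Agent.LT.H129
open Fermat.Agent.LT.A2 Fermat.Agent.LT.A2.H142 Fermat.Agent.LT.A2.H254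
open Fermat.Agent.LT.A2.H333 Fermat.Agent.LT.A2.H926

variable {K : Type} [Field K] [NumberField K]

/-! ## The local data of a split pair -/

theorem coe_fch_mul322 (v : HeightOneSpectrum (𝓞 K)) (g h : G K) :
    finComp v (g * h) = finComp v g * finComp v h := by
  rw [← coe_finCompHom129, ← coe_finCompHom129, ← coe_finCompHom129, map_mul, Units.val_mul]

theorem locPair_of_split322 {t n : K} {v : HeightOneSpectrum (𝓞 K)} {ϖ : v.adicCompletion K}
    {μ μb : G K} (hϖ : Valued.v ϖ = WithZero.exp (-1 : ℤ))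
    (hp : IsSplitPair254 t n v ϖ μ μb) :
    LocPair322 v ϖ (finCompHom129 v μ) (finCompHom129 v μb) := by
  have hϖ0 : ϖ ≠ 0 := by
    intro h0
    rw [h0, map_zero] at hϖ
    exact WithZero.exp_ne_zero hϖ.symm
  have hA : IntM322 v (finComp v μ) := hp.int
  have hB : IntM322 v (finComp v μb) := hp.intb
  have hAB : finComp v μ * finComp v μb
      = ϖ • (1 : Matrix (Fin 2) (Fin 2) (v.adicCompletion K)) := by
    rw [hp.mul, Matrix.smul_one_eq_diagonal]
  have hBA : finComp v μb * finComp v μ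
      = ϖ • (1 : Matrix (Fin 2) (Fin 2) (v.adicCompletion K)) := by
    rw [← coe_fch_mul322, ← inTorus_comm322 hp.tor hp.torb, coe_fch_mul322, hAB]
  -- `B = adj A`
  have hadj : finComp v μb = (finComp v μ).adjugate := by
    have h1 : (finComp v μ).adjugate * (finComp v μ * finComp v μb)
        = ϖ • finComp v μb := by
      rw [← mul_assoc, Matrix.adjugate_mul, hp.det, Matrix.smul_mul, one_mul]
    rw [hAB, Matrix.mul_smul, mul_one] at h1
    have h2 := smul_right_injective (Matrix (Fin 2) (Fin 2) (v.adicCompletion K)) hϖ0 h1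
    exact h2.symm
  have htrEq : finComp v μb 0 0 + finComp v μb 1 1 = finComp v μ 0 0 + finComp v μ 1 1 := by
    rw [hadj, Matrix.adjugate_fin_two]
    simp [add_comm]
  -- the trace of `B` is a unit
  have htrB : Valued.v (finComp v μb 0 0 + finComp v μb 1 1) = 1 := by
    have hτint : finComp v μb 0 0 + finComp v μb 1 1 ∈ v.adicCompletionIntegers K :=
      add_mem (hB 0 0) (hB 1 1)
    have hle : Valued.v (finComp v μb 0 0 + finComp v μb 1 1) ≤ 1 :=
      (mem_int_iff322 _).mp hτint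
    by_contra hne
    have hlt : Valued.v (finComp v μb 0 0 + finComp v μb 1 1) < 1 := lt_of_le_of_ne hle hne
    have hle' := le_exp_of_lt_one322 hlt
    apply hp.ninv
    -- the matrix of `μ⁻¹ μ̄` at `v`
    have hinv : ((finCompHom129 v μ)⁻¹ : GL (Fin 2) (v.adicCompletion K)).val
        = ϖ⁻¹ • finComp v μb := by
      apply Units.inv_eq_of_mul_eq_one_right
      rw [coe_finCompHom129, Matrix.mul_smul, hAB, smul_smul, inv_mul_cancel₀ hϖ0, one_smul]
    have hmat : finComp v (μ⁻¹ * μb)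
        = (ϖ⁻¹ * (finComp v μb 0 0 + finComp v μb 1 1)) • finComp v μb
          - (1 : Matrix (Fin 2) (Fin 2) (v.adicCompletion K)) := by
      rw [← coe_finCompHom129, map_mul, map_inv, Units.val_mul, hinv, coe_finCompHom129,
        Matrix.smul_mul, ← pow_two, sq_eq322, hp.detb, smul_sub, smul_smul, smul_smul,
        inv_mul_cancel₀ hϖ0, one_smul]
    show IntM322 v (finComp v (μ⁻¹ * μb))
    rw [hmat]
    have hc : ϖ⁻¹ * (finComp v μb 0 0 + finComp v μb 1 1) ∈ v.adicCompletionIntegers K := by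
      rw [mem_int_iff322, map_mul, map_inv₀, hϖ]
      calc (WithZero.exp (-1 : ℤ) : WithZero (Multiplicative ℤ))⁻¹
            * Valued.v (finComp v μb 0 0 + finComp v μb 1 1)
          ≤ (WithZero.exp (-1 : ℤ))⁻¹ * WithZero.exp (-1 : ℤ) := mul_le_mul_right hle' _
        _ = 1 := inv_mul_cancel₀ WithZero.exp_ne_zero
    intro a b
    rw [Matrix.sub_apply]
    exact sub_mem (intM_smul322 hc hB a b) (intM_one322 a b)
  exact ⟨hϖ, hA, hB, hp.det, hp.detb, hAB, hBA, htrEq ▸ htrB, htrB⟩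

/-! ## Elements local at `v` -/

theorem isLocalAtFin_pow322 {v : HeightOneSpectrum (𝓞 K)} {g : G K} (hg : IsLocalAtFin v g)
    (k : ℕ) : IsLocalAtFin v (g ^ k) := by
  induction k with
  | zero => rw [pow_zero]; exact isLocalAtFin_one129 v
  | succ k ih => rw [pow_succ]; exact isLocalAtFin_mul129 ih hg

theorem isLocalAtFin_zpow322 {v : HeightOneSpectrum (𝓞 K)} {g : G K} (hg : IsLocalAtFin v g)
    (i : ℤ) : IsLocalAtFin v (g ^ i) := by
  cases i with
  | ofNat k => rw [Int.ofNat_eq_natCast, zpow_natCast]; exact isLocalAtFin_pow322 hg k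
  | negSucc k => rw [zpow_negSucc]; exact isLocalAtFin_inv129 (isLocalAtFin_pow322 hg (k + 1))

/-- The first columns of two elements local at `v` agree off `v`. -/
theorem agreeOff_of_local322 {v : HeightOneSpectrum (𝓞 K)} {a b : G K}
    (ha : IsLocalAtFin v a) (hb : IsLocalAtFin v b) :
    WL.AgreeOffFin v (actV a ((1 : Adl K), (0 : Adl K))) (actV b ((1 : Adl K), (0 : Adl K))) := by
  rw [actV_e1_322, actV_e1_322]
  refine ⟨fun w => ⟨?_, ?_⟩, fun v' hv' => ⟨?_, ?_⟩⟩
  · exact (ha.1 w 0 0).trans (hb.1 w 0 0).symm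
  · exact (ha.1 w 1 0).trans (hb.1 w 1 0).symm
  · have h1 := congrFun (congrFun (ha.2 v' hv') 0) 0
    have h2 := congrFun (congrFun (hb.2 v' hv') 0) 0
    exact h1.trans h2.symm
  · have h1 := congrFun (congrFun (ha.2 v' hv') 1) 0
    have h2 := congrFun (congrFun (hb.2 v' hv') 1) 0
    exact h1.trans h2.symm

theorem vecIntegral_iff322 (v : HeightOneSpectrum (𝓞 K)) (a : G K) :
    WL.VecIntegralAt v (actV a ((1 : Adl K), (0 : Adl K)))
      ↔ finComp v a 0 0 ∈ v.adicCompletionIntegers K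
        ∧ finComp v a 1 0 ∈ v.adicCompletionIntegers K := by
  rw [actV_e1_322]
  rfl

/-- The determinants of a split pair agree. -/
theorem det_eq_of_split322 {t n : K} {v : HeightOneSpectrum (𝓞 K)} {ϖ : v.adicCompletion K}
    {μ μb : G K} (hp : IsSplitPair254 t n v ϖ μ μb) :
    Matrix.GeneralLinearGroup.det μ = Matrix.GeneralLinearGroup.det μb := by
  have h1 := isIdeleAt_det333 hp.loc
  have h2 := isIdeleAt_det333 hp.locb
  apply Units.ext
  apply adele_ext129
  · intro w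
    rw [h1.1 w, h2.1 w]
  · intro v'
    by_cases hv : v' = v
    · subst hv
      rw [det_finComp333, det_finComp333, hp.det, hp.detb]
    · rw [h1.2 v' hv, h2.2 v' hv]

/-! ## The leaf -/

/-- **A2.03.8.5.9 SUPP** (`H254.SuppC254`, verbatim). -/
theorem suppC322 : SuppC254 := by
  intro K _ _ D η W v hctx ϖ hϖ μ μb hp g' m' hg' hm' hadm j i u hu
  have hχ := hctx.good.torus
  have hweil := hctx.good.weil
  obtain ⟨ht, hn, -⟩ := hctx.std.good_int v hctx.hv
  have hL := locPair_of_split322 hϖ hp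
  -- the elements
  have hρT : InTorus D.t D.n (μ * μb⁻¹) := inTorus_mul333 hp.tor (inTorus_inv333 hp.torb)
  have hρ1 : InTorus1 D.t D.n (μ * μb⁻¹) :=
    ⟨hρT, by rw [map_mul, map_inv, det_eq_of_split322 hp, mul_inv_cancel]⟩
  have hρloc : IsLocalAtFin v (μ * μb⁻¹) :=
    isLocalAtFin_mul129 hp.loc (isLocalAtFin_inv129 hp.locb)
  obtain ⟨hu1, huint, huinv⟩ := hu
  have huv1 : InTorus1 D.t D.n (locFin129 v (finCompHom129 v u)) := inTorus1_loc322 v hu1
  have huvloc : IsLocalAtFin v (locFin129 v (finCompHom129 v u)) := isLocalAtFin_locFin129 v _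
  generalize huvdef : locFin129 v (finCompHom129 v u) = uv at huv1 huvloc
  have hfuv : finCompHom129 v uv = finCompHom129 v u := by
    rw [← huvdef, finCompHom129_locFin129]
  have hu'1 : InTorus1 D.t D.n (u * uv⁻¹) := inTorus1_mul322 hu1 (inTorus1_inv322 huv1)
  have hu'triv : TrivAtFin v (u * uv⁻¹) := by
    rw [trivAtFin_iff129, map_mul, map_inv, hfuv, mul_inv_cancel]
  have hcomm : uv * (u * uv⁻¹) = u := by
    rw [inTorus_comm322 huv1.1 hu'1.1, inv_mul_cancel_right]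
  have hm''1 : InTorus1 D.t D.n ((μ * μb⁻¹) ^ i * uv) :=
    inTorus1_mul322 (inTorus1_zpow322 hρ1 i) huv1
  have hm''loc : IsLocalAtFin v ((μ * μb⁻¹) ^ i * uv) :=
    isLocalAtFin_mul129 (isLocalAtFin_zpow322 hρloc i) huvloc
  have hadm' : Adm D.t D.n g' (u * uv⁻¹ * m') :=
    ⟨inTorus_mul333 hu'1.1 hadm.1, by rw [map_mul, hu'1.2, one_mul]; exact hadm.2⟩
  have htriv' : TrivAtFin v (u * uv⁻¹ * m') := by
    rw [trivAtFin_iff129, map_mul, (trivAtFin_iff129 v _).mp hu'triv,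
      (trivAtFin_iff129 v _).mp hm', mul_one]
  have hdecomp : (μ * μb⁻¹) ^ i * u * m' = ((μ * μb⁻¹) ^ i * uv) * (u * uv⁻¹ * m') := by
    have : ((μ * μb⁻¹) ^ i * uv) * (u * uv⁻¹ * m')
        = (μ * μb⁻¹) ^ i * (uv * (u * uv⁻¹)) * m' := by group
    rw [this, hcomm]
  have hdecomp0 : u * m' = uv * (u * uv⁻¹ * m') := by
    rw [← mul_assoc, hcomm]
  -- the element `Y`
  have hYT : InTorus D.t D.n (((μ * μb⁻¹) ^ i * uv)⁻¹ * μb ^ j) :=
    inTorus_mul333 (inTorus_inv333 hm''1.1) (inTorus_pow333 hp.torb j)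
  have hYloc : IsLocalAtFin v (((μ * μb⁻¹) ^ i * uv)⁻¹ * μb ^ j) :=
    isLocalAtFin_mul129 (isLocalAtFin_inv129 hm''loc) (isLocalAtFin_pow322 hp.locb j)
  have hYmat : finComp v (((μ * μb⁻¹) ^ i * uv)⁻¹ * μb ^ j)
      = finComp v u⁻¹ * ((((finCompHom129 v μ * (finCompHom129 v μb)⁻¹) ^ i)⁻¹
          * finCompHom129 v μb ^ j : GL (Fin 2) (v.adicCompletion K)) :
            Matrix (Fin 2) (Fin 2) (v.adicCompletion K)) := by
    rw [← coe_finCompHom129, ← coe_finCompHom129, ← Units.val_mul]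
    congr 1
    rw [map_mul, map_inv, map_mul, map_zpow, map_mul, map_inv, map_pow, hfuv, mul_inv_rev,
      map_inv, mul_assoc]
  have hZmat : ((((finCompHom129 v μ * (finCompHom129 v μb)⁻¹) ^ i)⁻¹
          * finCompHom129 v μb ^ j : GL (Fin 2) (v.adicCompletion K)) :
            Matrix (Fin 2) (Fin 2) (v.adicCompletion K))
      = finComp v u * finComp v (((μ * μb⁻¹) ^ i * uv)⁻¹ * μb ^ j) := by
    rw [hYmat, ← mul_assoc, ← coe_fch_mul322, mul_inv_cancel]
    have : finComp v (1 : G K) = 1 := by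
      rw [← coe_finCompHom129, map_one]; rfl
    rw [this, one_mul]
  -- the torus character
  have hchi : D.χT ((μ * μb⁻¹) ^ i * u * m')
      = (D.χT μ / D.χT μb) ^ i * D.χT (u * m') := by
    rw [mul_assoc, hχ.mul _ _ (inTorus_zpow322 hρT i) (inTorus_mul333 hu1.1 hadm.1),
      chi_zpow322 hχ hρT, hχ.mul _ _ hp.tor (inTorus_inv333 hp.torb), chi_inv322 hχ hp.torb,
      div_eq_mul_inv]
  -- the Weil family
  have hF : D.F g' ((μ * μb⁻¹) ^ i * u * m') (actV (μb ^ j) ((1 : Adl K), (0 : Adl K)))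
      = D.F g' (u * uv⁻¹ * m')
          (actV (((μ * μb⁻¹) ^ i * uv)⁻¹ * μb ^ j) ((1 : Adl K), (0 : Adl K))) := by
    rw [hdecomp, hweil.tor1 _ hm''1 g' _ _ hadm', ← actV_mul322]
  have hF0 : D.F g' (u * m') ((1 : Adl K), (0 : Adl K))
      = D.F g' (u * uv⁻¹ * m') (actV uv⁻¹ ((1 : Adl K), (0 : Adl K))) := by
    rw [hdecomp0, hweil.tor1 _ huv1 g' _ _ hadm']
  obtain ⟨hstd0, hstd1⟩ := hctx.std.good_std v hctx.hv g' (u * uv⁻¹ * m') hadm' hg' htriv'
  unfold orbFn254
  rw [hF, hchi]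
  by_cases hcond : -(j : ℤ) ≤ i ∧ i ≤ 0
  · rw [if_pos hcond]
    have hZint := (hL.zmat_int_iff i j).mpr hcond
    have hYint : IntM322 v (finComp v (((μ * μb⁻¹) ^ i * uv)⁻¹ * μb ^ j)) := by
      rw [hYmat]
      exact intM_mul322 huinv hZint
    have hv1 : WL.VecIntegralAt v
        (actV (((μ * μb⁻¹) ^ i * uv)⁻¹ * μb ^ j) ((1 : Adl K), (0 : Adl K))) :=
      (vecIntegral_iff322 v _).mpr ⟨hYint 0 0, hYint 1 0⟩
    have huvinv : finComp v uv⁻¹ = finComp v u⁻¹ := by
      rw [← coe_finCompHom129, ← coe_finCompHom129, map_inv, map_inv, hfuv]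
    have hv2 : WL.VecIntegralAt v (actV uv⁻¹ ((1 : Adl K), (0 : Adl K))) := by
      rw [vecIntegral_iff322, huvinv]
      exact ⟨huinv 0 0, huinv 1 0⟩
    rw [hstd1 _ _ (agreeOff_of_local322 hYloc (isLocalAtFin_inv129 huvloc)) hv1 hv2, ← hF0]
    ring
  · rw [if_neg hcond]
    have hnot : ¬ WL.VecIntegralAt v
        (actV (((μ * μb⁻¹) ^ i * uv)⁻¹ * μb ^ j) ((1 : Adl K), (0 : Adl K))) := by
      intro hv1
      obtain ⟨h0, h1⟩ := (vecIntegral_iff322 v _).mp hv1
      have hYint := intM_of_col322 v ht hn hYT h0 h1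
      apply hcond
      apply (hL.zmat_int_iff i j).mp
      rw [hZmat]
      exact intM_mul322 huint hYint
    rw [hstd0 _ hnot, zero_mul]

example : SuppC254 := suppC322

end Fermat.Agent.LT.A2.H322

end
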