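import Fermat.Agent.LT.A2.H322.SuppTools

/-!
# Row LT, tower A2, leaf A2.03.8.5.9 `H254.SuppC254` (helper322): the split pair at `v`

OFF-MAIN.  For a split pair `(μ, μ̄)` at `v` with local matrices `A`, `B`:
`A B = B A = ϖ`, `B = adj A`, the common trace is a unit (`ninv`), and with `X = A B⁻¹`:

    (X^i)⁻¹ B^j  is integral   ⟺   -j ≤ i ≤ 0          (`zmat_int_iff322`).
-/

set_option autoImplicit false

open IsDedekindDomain NumberField AutomorphicForm MeasureTheory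
open scoped MatrixGroups

noncomputable section

namespace Fermat.Agent.LT.A2.H322

open Fermat.Agent.LT.H556 Fermat.Agent.LT.H556.A0 Fermat.Agent.LT.H129
open Fermat.Agent.LT.A2 Fermat.Agent.LT.A2.H142 Fermat.Agent.LT.A2.H254
open Fermat.Agent.LT.A2.H333 Fermat.Agent.LT.A2.H926

variable {K : Type} [Field K] [NumberField K]

/-- The local data of a split pair. -/
structure LocPair322 (v : HeightOneSpectrum (𝓞 K)) (ϖ : v.adicCompletion K)
    (P Q : GL (Fin 2) (v.adicCompletion K)) : Prop where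
  unif : Valued.v ϖ = WithZero.exp (-1 : ℤ)
  intP : IntM322 v (P : Matrix (Fin 2) (Fin 2) (v.adicCompletion K))
  intQ : IntM322 v (Q : Matrix (Fin 2) (Fin 2) (v.adicCompletion K))
  detP : (P : Matrix (Fin 2) (Fin 2) (v.adicCompletion K)).det = ϖ
  detQ : (Q : Matrix (Fin 2) (Fin 2) (v.adicCompletion K)).det = ϖ
  mulPQ : (P : Matrix (Fin 2) (Fin 2) (v.adicCompletion K)) * Q
    = ϖ • (1 : Matrix (Fin 2) (Fin 2) (v.adicCompletion K))
  mulQP : (Q : Matrix (Fin 2) (Fin 2) (v.adicCompletion K)) * P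
    = ϖ • (1 : Matrix (Fin 2) (Fin 2) (v.adicCompletion K))
  trP : Valued.v ((P : Matrix (Fin 2) (Fin 2) (v.adicCompletion K)) 0 0
    + (P : Matrix (Fin 2) (Fin 2) (v.adicCompletion K)) 1 1) = 1
  trQ : Valued.v ((Q : Matrix (Fin 2) (Fin 2) (v.adicCompletion K)) 0 0
    + (Q : Matrix (Fin 2) (Fin 2) (v.adicCompletion K)) 1 1) = 1

namespace LocPair322

variable {v : HeightOneSpectrum (𝓞 K)} {ϖ : v.adicCompletion K}
  {P Q : GL (Fin 2) (v.adicCompletion K)}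

theorem unif_ne_zero (h : LocPair322 v ϖ P Q) : ϖ ≠ 0 := by
  intro h0
  have := h.unif
  rw [h0, map_zero] at this
  exact WithZero.exp_ne_zero this.symm

theorem symm (h : LocPair322 v ϖ P Q) : LocPair322 v ϖ Q P :=
  ⟨h.unif, h.intQ, h.intP, h.detQ, h.detP, h.mulQP, h.mulPQ, h.trQ, h.trP⟩

theorem coe_inv_P (h : LocPair322 v ϖ P Q) :
    ((P⁻¹ : GL (Fin 2) (v.adicCompletion K)) : Matrix (Fin 2) (Fin 2) (v.adicCompletion K))
      = ϖ⁻¹ • (Q : Matrix (Fin 2) (Fin 2) (v.adicCompletion K)) := by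
  apply Units.inv_eq_of_mul_eq_one_right
  rw [Matrix.mul_smul, h.mulPQ, smul_smul, inv_mul_cancel₀ h.unif_ne_zero, one_smul]

theorem coe_inv_Q (h : LocPair322 v ϖ P Q) :
    ((Q⁻¹ : GL (Fin 2) (v.adicCompletion K)) : Matrix (Fin 2) (Fin 2) (v.adicCompletion K))
      = ϖ⁻¹ • (P : Matrix (Fin 2) (Fin 2) (v.adicCompletion K)) :=
  h.symm.coe_inv_P

theorem commute (h : LocPair322 v ϖ P Q) :
    Commute (P : Matrix (Fin 2) (Fin 2) (v.adicCompletion K))
      (Q : Matrix (Fin 2) (Fin 2) (v.adicCompletion K)) := by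
  show _ * _ = _ * _
  rw [h.mulPQ, h.mulQP]

theorem pow_mul_pow (h : LocPair322 v ϖ P Q) (p : ℕ) :
    (P : Matrix (Fin 2) (Fin 2) (v.adicCompletion K)) ^ p
        * (Q : Matrix (Fin 2) (Fin 2) (v.adicCompletion K)) ^ p
      = ϖ ^ p • (1 : Matrix (Fin 2) (Fin 2) (v.adicCompletion K)) := by
  rw [← h.commute.mul_pow, h.mulPQ, smul_pow, one_pow]

/-- The matrix of `(P Q⁻¹)^n`. -/
theorem coe_X_pow (h : LocPair322 v ϖ P Q) (n : ℕ) :
    (((P * Q⁻¹) ^ n : GL (Fin 2) (v.adicCompletion K)) :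
        Matrix (Fin 2) (Fin 2) (v.adicCompletion K))
      = (ϖ⁻¹) ^ n • (P : Matrix (Fin 2) (Fin 2) (v.adicCompletion K)) ^ (2 * n) := by
  rw [Units.val_pow_eq_pow_val, Units.val_mul, h.coe_inv_Q, Matrix.mul_smul, ← pow_two,
    smul_pow, ← pow_mul]

/-- `(ϖ⁻¹)^n B^(2n + j)` is integral iff `n = 0`. -/
theorem int_pos_iff (h : LocPair322 v ϖ P Q) (n j : ℕ) :
    IntM322 v ((ϖ⁻¹) ^ n • (Q : Matrix (Fin 2) (Fin 2) (v.adicCompletion K)) ^ (2 * n + j))
      ↔ n = 0 := by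
  constructor
  · intro hint
    by_contra hn
    obtain ⟨m, rfl⟩ := Nat.exists_eq_succ_of_ne_zero hn
    have h1 : 2 * (m + 1) + j = (2 * m + 1 + j) + 1 := by ring
    rw [h1] at hint
    exact not_intM_smul_pow322 h.unif h.detQ h.trQ m (2 * m + 1 + j) hint
  · rintro rfl
    rw [pow_zero, one_smul]
    exact intM_pow322 h.intQ _

/-- `(ϖ⁻¹)^n A^(2n) B^j` is integral iff `n ≤ j`. -/
theorem int_neg_iff (h : LocPair322 v ϖ P Q) (n j : ℕ) :
    IntM322 v ((ϖ⁻¹) ^ n • ((P : Matrix (Fin 2) (Fin 2) (v.adicCompletion K)) ^ (2 * n)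
        * (Q : Matrix (Fin 2) (Fin 2) (v.adicCompletion K)) ^ j)) ↔ n ≤ j := by
  have hϖ0 := h.unif_ne_zero
  by_cases hnj : n ≤ j
  · simp only [hnj, iff_true]
    obtain ⟨d, rfl⟩ := Nat.exists_eq_add_of_le hnj
    have e1 : (P : Matrix (Fin 2) (Fin 2) (v.adicCompletion K)) ^ (2 * n)
          * (Q : Matrix (Fin 2) (Fin 2) (v.adicCompletion K)) ^ (n + d)
        = ϖ ^ n • ((P : Matrix (Fin 2) (Fin 2) (v.adicCompletion K)) ^ n
          * (Q : Matrix (Fin 2) (Fin 2) (v.adicCompletion K)) ^ d) := by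
      rw [two_mul, pow_add, pow_add, mul_assoc, ← mul_assoc (_ ^ n) (_ ^ n) (_ ^ d),
        h.pow_mul_pow, Matrix.smul_mul, one_mul, Matrix.mul_smul]
    rw [e1, smul_smul, ← mul_pow, inv_mul_cancel₀ hϖ0, one_pow, one_smul]
    exact intM_mul322 (intM_pow322 h.intP _) (intM_pow322 h.intQ _)
  · simp only [hnj, iff_false]
    have hjn : j < n := Nat.lt_of_not_le hnj
    obtain ⟨d, rfl⟩ := Nat.exists_eq_add_of_lt hjn
    -- `n = j + d + 1`
    have e1 : (P : Matrix (Fin 2) (Fin 2) (v.adicCompletion K)) ^ (2 * (j + d + 1))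
          * (Q : Matrix (Fin 2) (Fin 2) (v.adicCompletion K)) ^ j
        = ϖ ^ j • (P : Matrix (Fin 2) (Fin 2) (v.adicCompletion K)) ^ ((j + 2 * d + 1) + 1) := by
      have e2 : 2 * (j + d + 1) = (j + 2 * d + 1 + 1) + j := by ring
      rw [e2, pow_add, mul_assoc, h.pow_mul_pow, Matrix.mul_smul, mul_one]
    have e3 : (ϖ⁻¹) ^ (j + d + 1) * ϖ ^ j = (ϖ⁻¹) ^ (d + 1) := by
      rw [show j + d + 1 = (d + 1) + j by ring, pow_add, mul_assoc, ← mul_pow,
        inv_mul_cancel₀ hϖ0, one_pow, mul_one]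
    rw [e1, smul_smul, e3]
    exact not_intM_smul_pow322 h.unif h.detP h.trP d (j + 2 * d + 1)

/-- **The criterion**: with `X = P Q⁻¹`, `(X^i)⁻¹ Q^j` is integral iff `-j ≤ i ≤ 0`. -/
theorem zmat_int_iff (h : LocPair322 v ϖ P Q) (i : ℤ) (j : ℕ) :
    IntM322 v ((((P * Q⁻¹) ^ i)⁻¹ * Q ^ j : GL (Fin 2) (v.adicCompletion K)) :
        Matrix (Fin 2) (Fin 2) (v.adicCompletion K))
      ↔ (-(j : ℤ) ≤ i ∧ i ≤ 0) := by
  obtain ⟨n, rfl | rfl⟩ := Int.eq_nat_or_neg i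
  · -- `i = n ≥ 0`
    have e1 : (((P * Q⁻¹) ^ (n : ℤ))⁻¹ * Q ^ j : GL (Fin 2) (v.adicCompletion K))
        = (Q * P⁻¹) ^ n * Q ^ j := by
      rw [zpow_natCast, ← inv_pow, mul_inv_rev, inv_inv]
    rw [e1, Units.val_mul, Units.val_pow_eq_pow_val, Units.val_pow_eq_pow_val]
    have e2 := h.symm.coe_X_pow n
    rw [Units.val_pow_eq_pow_val] at e2
    rw [e2, Matrix.smul_mul, ← pow_add, h.int_pos_iff]
    constructor
    · rintro rfl
      constructor
      · simp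
      · simp
    · rintro ⟨-, h2⟩
      have h3 : (n : ℤ) = 0 := le_antisymm h2 (Int.natCast_nonneg n)
      exact_mod_cast h3
  · -- `i = -n`
    have e1 : (((P * Q⁻¹) ^ (-(n : ℤ)))⁻¹ * Q ^ j : GL (Fin 2) (v.adicCompletion K))
        = (P * Q⁻¹) ^ n * Q ^ j := by
      rw [zpow_neg, inv_inv, zpow_natCast]
    rw [e1, Units.val_mul, Units.val_pow_eq_pow_val (Q) j]
    rw [h.coe_X_pow n, Matrix.smul_mul, h.int_neg_iff]
    constructor
    · intro hnj
      constructor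
      · exact neg_le_neg (by exact_mod_cast hnj)
      · simp
    · rintro ⟨h1, -⟩
      have := neg_le_neg_iff.mp h1
      exact_mod_cast this

end LocPair322

end Fermat.Agent.LT.A2.H322

end
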