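import Fermat.Agent.LT.A2.H254.IntSpec
import Fermat.Agent.LT.A2.H333.Plus
import Fermat.Agent.LT.A2.H926.Partner
import Fermat.Agent.LT.A2.H322.LocalInt

/-!
# Row LT, tower A2, leaf A2.03.8.5.9 `H254.SuppC254` (helper322): tools

OFF-MAIN.  On `LT/A2/H254/IntSpec.lean` (helper254@ddb43b08e, sha256 e654c419) and the assets
`LT/A2/H333/Plus.lean` (helper333, torus group), `LT/A2/H926/Partner.lean` (helper926, local
components of torus elements), byte-identical copies.

* `actV_mul322`: `actV` is an action;
* `inTorus_comm322`, `inTorus_zpow322`, `inTorus1_*`: the torus is commutative, closed under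
  integral powers; `T¹`;
* `chi_zpow322`: `χT (m ^ i) = χT m ^ i` on the torus;
* `inTorus_loc322`, `inTorus1_loc322`: the local component at `v` of an element of `T` (`T¹`) is in
  `T` (`T¹`);
* `finComp_torus322`: the component at `v` of a torus element is a torus matrix over `K_v`;
  `intM_of_col322`: it is integral as soon as its first column is (for `t`, `n` integral).
-/

set_option autoImplicit false

open IsDedekindDomain NumberField AutomorphicForm MeasureTheory
open scoped MatrixGroups

noncomputable section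

namespace Fermat.Agent.LT.A2.H322

open Fermat.Agent.LT.H556 Fermat.Agent.LT.H556.A0 Fermat.Agent.LT.H129
open Fermat.Agent.LT.A2 Fermat.Agent.LT.A2.H142 Fermat.Agent.LT.A2.H254
open Fermat.Agent.LT.A2.H333 Fermat.Agent.LT.A2.H926

variable {K : Type} [Field K] [NumberField K]

/-! ## The action on vectors -/

theorem actV_mul322 (a b : G K) (ξ : Adl K × Adl K) : actV (a * b) ξ = actV a (actV b ξ) := by
  unfold actV
  rw [Units.val_mul]
  simp only [Matrix.mul_apply, Fin.sum_univ_two]
  apply Prod.ext <;> ring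

theorem actV_e1_322 (a : G K) :
    actV a ((1 : Adl K), (0 : Adl K))
      = ((a : Matrix (Fin 2) (Fin 2) (Adl K)) 0 0, (a : Matrix (Fin 2) (Fin 2) (Adl K)) 1 0) := by
  unfold actV
  simp

/-! ## The torus -/

theorem inTorus_comm322 {t n : K} {m m' : G K} (h : InTorus t n m) (h' : InTorus t n m') :
    m * m' = m' * m := by
  obtain ⟨a, b, hab⟩ := h
  obtain ⟨a', b', hab'⟩ := h'
  apply Units.ext
  rw [Units.val_mul, Units.val_mul, hab, hab', torMat_mul333, torMat_mul333]
  congr 1 <;> ring

theorem inTorus_zpow322 {t n : K} {m : G K} (h : InTorus t n m) (i : ℤ) :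
    InTorus t n (m ^ i) := by
  cases i with
  | ofNat k => rw [Int.ofNat_eq_natCast, zpow_natCast]; exact inTorus_pow333 h k
  | negSucc k => rw [zpow_negSucc]; exact inTorus_inv333 (inTorus_pow333 h (k + 1))

theorem inTorus1_mul322 {t n : K} {m m' : G K} (h : InTorus1 t n m) (h' : InTorus1 t n m') :
    InTorus1 t n (m * m') :=
  ⟨inTorus_mul333 h.1 h'.1, by rw [map_mul, h.2, h'.2, mul_one]⟩

theorem inTorus1_inv322 {t n : K} {m : G K} (h : InTorus1 t n m) : InTorus1 t n m⁻¹ :=
  ⟨inTorus_inv333 h.1, by rw [map_inv, h.2, inv_one]⟩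

theorem inTorus1_zpow322 {t n : K} {m : G K} (h : InTorus1 t n m) (i : ℤ) :
    InTorus1 t n (m ^ i) :=
  ⟨inTorus_zpow322 h.1 i, by rw [map_zpow, h.2, one_zpow]⟩

/-! ## The torus character -/

theorem chi_ne_zero322 {t n : K} {χT : G K → ℂ} (hχ : IsTorusChar t n χT) {m : G K}
    (h : InTorus t n m) : χT m ≠ 0 := by
  obtain ⟨k, hk, hkm⟩ := hχ.fin_order
  intro h0
  have := hkm m h
  rw [h0, zero_pow hk.ne'] at this
  exact zero_ne_one this

theorem chi_inv322 {t n : K} {χT : G K → ℂ} (hχ : IsTorusChar t n χT) {m : G K}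
    (h : InTorus t n m) : χT m⁻¹ = (χT m)⁻¹ := by
  have h1 := hχ.mul m m⁻¹ h (inTorus_inv333 h)
  rw [mul_inv_cancel, hχ.one] at h1
  exact eq_inv_of_mul_eq_one_right h1.symm

theorem chi_pow322 {t n : K} {χT : G K → ℂ} (hχ : IsTorusChar t n χT) {m : G K}
    (h : InTorus t n m) (k : ℕ) : χT (m ^ k) = χT m ^ k := by
  induction k with
  | zero => rw [pow_zero, pow_zero, hχ.one]
  | succ k ih => rw [pow_succ, pow_succ, hχ.mul _ _ (inTorus_pow333 h k) h, ih]

theorem chi_zpow322 {t n : K} {χT : G K → ℂ} (hχ : IsTorusChar t n χT) {m : G K}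
    (h : InTorus t n m) (i : ℤ) : χT (m ^ i) = χT m ^ i := by
  cases i with
  | ofNat k => rw [Int.ofNat_eq_natCast, zpow_natCast, zpow_natCast]; exact chi_pow322 hχ h k
  | negSucc k =>
    rw [zpow_negSucc, zpow_negSucc, chi_inv322 hχ (inTorus_pow333 h (k + 1)), chi_pow322 hχ h]

/-! ## Local components of torus elements -/

/-- `m · loc_v(m_v)⁻¹` is in the torus (the coordinates of `m` with the component at `v` replaced
by `1`, `0`). -/
theorem inTorus_mul_loc_inv322 {t n : K} (v : HeightOneSpectrum (𝓞 K)) {m : G K}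
    (h : InTorus t n m) : InTorus t n (m * (locFin129 v (finCompHom129 v m))⁻¹) := by
  obtain ⟨a, b, hab⟩ := h
  refine ⟨replaceAt926 v a 1, replaceAt926 v b 0, ?_⟩
  rw [Units.val_mul, ← map_inv, coe_locFin129]
  apply adeleMatrix_ext129
  · intro w
    rw [Matrix.map_mul, locMat129_map_inf, mul_one, hab, torMat_map926p, torMat_map926p,
      replaceAt926_inf, replaceAt926_inf]
  · intro v'
    rw [Matrix.map_mul]
    by_cases hv : v' = v
    · subst hv
      rw [locMat129_map_same, ← coe_finCompHom129_map, ← Matrix.GeneralLinearGroup.coe_mul,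
        mul_inv_cancel, torMat_map926p, replaceAt926_same, replaceAt926_same, torMat_one926p]
      rfl
    · rw [locMat129_map_of_ne v _ hv, mul_one, hab, torMat_map926p, torMat_map926p,
        replaceAt926_of_ne v _ _ hv, replaceAt926_of_ne v _ _ hv]

/-- The local component at `v` of a torus element is a torus element. -/
theorem inTorus_loc322 {t n : K} (v : HeightOneSpectrum (𝓞 K)) {m : G K}
    (h : InTorus t n m) : InTorus t n (locFin129 v (finCompHom129 v m)) := by
  have h1 := inTorus_mul333 (inTorus_inv333 (inTorus_mul_loc_inv322 v h)) h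
  have h2 : (m * (locFin129 v (finCompHom129 v m))⁻¹)⁻¹ * m
      = locFin129 v (finCompHom129 v m) := by group
  rwa [h2] at h1

/-- The local component at `v` of an element of `T¹` is in `T¹`. -/
theorem inTorus1_loc322 {t n : K} (v : HeightOneSpectrum (𝓞 K)) {m : G K}
    (h : InTorus1 t n m) : InTorus1 t n (locFin129 v (finCompHom129 v m)) := by
  refine ⟨inTorus_loc322 v h.1, det_locFin926 v _ ?_⟩
  unfold finCompHom129
  rw [Matrix.GeneralLinearGroup.map_det, h.2, map_one]

/-- The component at `v` of a torus element is a torus matrix over `K_v`. -/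
theorem finComp_torus322 {t n : K} (v : HeightOneSpectrum (𝓞 K)) {m : G K}
    (h : InTorus t n m) : ∃ a b : v.adicCompletion K,
      finComp v m = torMat (algebraMap K (v.adicCompletion K) t)
        (algebraMap K (v.adicCompletion K) n) a b := by
  obtain ⟨a, b, hab⟩ := h
  refine ⟨evF129 v a, evF129 v b, ?_⟩
  rw [← coe_finCompHom129, coe_finCompHom129_map, hab, torMat_map926p]
  rfl

/-- A torus matrix over `K_v` (with `t`, `n` integral) is integral as soon as its first column
is. -/
theorem intM_of_col322 {t n : K} (v : HeightOneSpectrum (𝓞 K))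
    (ht : Valued.v (algebraMap K (v.adicCompletion K) t) ≤ 1)
    (hn : Valued.v (algebraMap K (v.adicCompletion K) n) ≤ 1) {m : G K}
    (h : InTorus t n m) (h0 : finComp v m 0 0 ∈ v.adicCompletionIntegers K)
    (h1 : finComp v m 1 0 ∈ v.adicCompletionIntegers K) : IntM322 v (finComp v m) := by
  obtain ⟨a, b, hab⟩ := finComp_torus322 v h
  rw [hab] at h0 h1 ⊢
  have ha : a ∈ v.adicCompletionIntegers K := by simpa [torMat] using h0
  have hb : b ∈ v.adicCompletionIntegers K := by simpa [torMat] using h1
  have ht' := (mem_int_iff322 _).mpr ht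
  have hn' := (mem_int_iff322 _).mpr hn
  intro i j
  fin_cases i <;> fin_cases j
  · simpa [torMat] using ha
  · simpa [torMat] using mul_mem hn' hb
  · simpa [torMat] using hb
  · simpa [torMat] using add_mem ha (mul_mem ht' hb)

end Fermat.Agent.LT.A2.H322

end
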